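import Mathlib.MeasureTheory.Constructions.Polish.Basic
import Mathlib.MeasureTheory.Measure.Regular
import Mathlib.Topology.MetricSpace.PiNat

/-!
# Choquet's capacitability theorem
-/

set_option autoImplicit false

universe u v

namespace FA.Capacity

open Set Topology MeasureTheory PiNat
open scoped ENNReal

variable {X : Type u} [TopologicalSpace X]

/-- A capacity: monotone, continuous along increasing unions, and outer regular at compact
sets. -/
structure IsChoquetCapacity (c : Set X → ℝ≥0∞) : Prop where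
  mono : Monotone c
  iUnion : ∀ A : ℕ → Set X, Monotone A → c (⋃ n, A n) = ⨆ n, c (A n)
  outer : ∀ K, IsCompact K → ∀ r, c K < r → ∃ U, IsOpen U ∧ K ⊆ U ∧ c U < r

/-- The sequences bounded by `b` in their first `n` coordinates. -/
def boundedBelow (b : ℕ → ℕ) (n : ℕ) : Set (ℕ → ℕ) :=
  {z | ∀ i < n, z i ≤ b i}

/-- An open set which contains all the bounded sequences contains all those whose first
coordinates, finitely many, are bounded. -/
theorem exists_boundedBelow_subset {b : ℕ → ℕ} {W : Set (ℕ → ℕ)} (hW : IsOpen W)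
    (h : {z | ∀ i, z i ≤ b i} ⊆ W) : ∃ n, boundedBelow b n ⊆ W := by
  classical
  have hK : IsCompact {z : ℕ → ℕ | ∀ i, z i ≤ b i} := by
    simpa [Set.pi, mem_Iic] using isCompact_univ_pi fun i => (finite_Iic (b i)).isCompact
  have hcyl : ∀ z ∈ {z : ℕ → ℕ | ∀ i, z i ≤ b i}, ∃ m, cylinder z m ⊆ W := fun z hz => by
    obtain ⟨_, ⟨w, m, rfl⟩, hzm, hsub⟩ := (isTopologicalBasis_cylinders fun _ : ℕ => ℕ)
      |>.exists_subset_of_mem_open (h hz) hW
    exact ⟨m, by rwa [mem_cylinder_iff_eq.1 hzm]⟩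
  choose m hm using hcyl
  obtain ⟨t, ht⟩ := hK.elim_nhds_subcover' (fun z hz => cylinder z (m z hz))
    fun z hz => (isOpen_cylinder _ z _).mem_nhds (self_mem_cylinder z _)
  refine ⟨t.sup fun z => m z.1 z.2, fun w hw => ?_⟩
  obtain ⟨z, hzt, hz⟩ := mem_iUnion₂.1
    (@ht (fun i => min (w i) (b i)) fun i => min_le_right _ _)
  refine hm z.1 z.2 (mem_cylinder_iff.2 fun i hi => ?_)
  rw [← mem_cylinder_iff.1 hz i hi,
    min_eq_left (hw i (hi.trans_le (Finset.le_sup (f := fun z => m z.1 z.2) hzt)))]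

variable {c : Set X → ℝ≥0∞}

/-- **Choquet's capacitability theorem.** An analytic set of capacity above `t` has a compact
subset of capacity at least `t`. -/
theorem exists_compact_le (hc : IsChoquetCapacity c) {A : Set X} (hA : AnalyticSet A) {t : ℝ≥0∞}
    (ht : t < c A) : ∃ K ⊆ A, IsCompact K ∧ t ≤ c K := by
  classical
  rw [AnalyticSet] at hA
  rcases hA with rfl | ⟨f, hf, rfl⟩
  · exact ⟨∅, subset_rfl, isCompact_empty, ht.le⟩
  have hstep : ∀ (n : ℕ) (S : Set (ℕ → ℕ)), t < c (f '' S) →
      ∃ m, t < c (f '' (S ∩ {z | z n ≤ m})) := fun n S hS => by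
    refine lt_iSup_iff.1 (hS.trans_le (le_of_eq ?_))
    have hmono : Monotone fun m => f '' (S ∩ {z | z n ≤ m}) := fun i j hij =>
      image_mono fun z (hz : z ∈ S ∩ {z | z n ≤ i}) => ⟨hz.1, le_trans (α := ℕ) hz.2 hij⟩
    rw [← hc.iUnion _ hmono, ← image_iUnion, ← inter_iUnion,
      iUnion_eq_univ_iff.2 fun z : ℕ → ℕ => ⟨z n, le_refl (z n)⟩, inter_univ]
  let seq : ℕ → {S : Set (ℕ → ℕ) // t < c (f '' S)} := fun n =>
    Nat.rec ⟨univ, by rwa [image_univ]⟩
      (fun n S => ⟨S.1 ∩ {z | z n ≤ (hstep n S.1 S.2).choose}, (hstep n S.1 S.2).choose_spec⟩) n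
  let b : ℕ → ℕ := fun n => (hstep n (seq n).1 (seq n).2).choose
  have hseq : ∀ n, (seq n).1 = boundedBelow b n := fun n => by
    induction n with
    | zero => exact (eq_univ_of_forall fun z i hi => absurd hi (Nat.not_lt_zero i)).symm
    | succ n ih =>
      change (seq n).1 ∩ {z | z n ≤ b n} = boundedBelow b (n + 1)
      rw [ih]
      ext z
      exact ⟨fun hz i hi => (Nat.lt_succ_iff_lt_or_eq.1 hi).elim (hz.1 i) fun e => e ▸ hz.2,
        fun hz => ⟨fun i hi => hz i (hi.trans n.lt_succ_self), hz n n.lt_succ_self⟩⟩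
  have hK : IsCompact (f '' {z | ∀ i, z i ≤ b i}) := by
    refine IsCompact.image ?_ hf
    simpa [Set.pi, mem_Iic] using isCompact_univ_pi fun i => (finite_Iic (b i)).isCompact
  refine ⟨_, image_subset_range f _, hK, not_lt.1 fun hlt => ?_⟩
  obtain ⟨U, hU, hKU, hcU⟩ := hc.outer _ hK t hlt
  obtain ⟨n, hn⟩ := exists_boundedBelow_subset (hU.preimage hf) fun z hz => hKU ⟨z, hz, rfl⟩
  exact absurd ((seq n).2.trans_le (hc.mono (image_subset_iff.2 ((hseq n).trans_subset hn))))
    hcU.not_gt

/-- **Choquet.** Analytic sets are capacitable. -/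
theorem capacity_eq_iSup (hc : IsChoquetCapacity c) {A : Set X} (hA : AnalyticSet A) :
    c A = ⨆ (K : Set X) (_ : K ⊆ A) (_ : IsCompact K), c K := by
  refine le_antisymm (le_of_forall_lt_imp_le_of_dense fun t ht => ?_)
    (iSup_le fun K => iSup_le fun hK => iSup_le fun _ => hc.mono hK)
  obtain ⟨K, hKA, hK, hle⟩ := exists_compact_le hc hA ht
  exact hle.trans (le_iSup₂_of_le K hKA (le_iSup (fun _ : IsCompact K => c K) hK))

variable [MeasurableSpace X] (μ : Measure X) [μ.OuterRegular]

/-- An outer regular measure is a capacity. -/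
theorem isChoquetCapacity_measure : IsChoquetCapacity fun s => μ s where
  mono _ _ h := measure_mono h
  iUnion _ hA := hA.measure_iUnion
  outer K _ r hr := by
    obtain ⟨U, hKU, hU, hlt⟩ := K.exists_isOpen_lt_of_lt r hr
    exact ⟨U, hU, hKU, hlt⟩

/-- The measure of the image under a continuous map is a capacity. -/
theorem isChoquetCapacity_image {Z : Type v} [TopologicalSpace Z] {g : Z → X}
    (hg : Continuous g) : IsChoquetCapacity fun s => μ (g '' s) where
  mono _ _ h := measure_mono (image_mono h)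
  iUnion A hA := by
    rw [image_iUnion]
    exact (show Monotone fun n => g '' A n from fun i j h => image_mono (hA h)).measure_iUnion
  outer K _ r hr := by
    obtain ⟨U, hKU, hU, hlt⟩ := (g '' K).exists_isOpen_lt_of_lt r hr
    exact ⟨g ⁻¹' U, hU.preimage hg, image_subset_iff.1 hKU,
      (measure_mono (image_preimage_subset g U)).trans_lt hlt⟩

end FA.Capacity
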